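import Fermat.Agent.EC.DetCyclo
import Fermat.Agent.EC.FrobeniusTrace
import Fermat.Agent.EC.Rep
import Fermat.Agent.GalRep.Cyclo
import Fermat.Agent.GalRep.Wild.Eigen
import Fermat.Prelude.Def_FLTPrelim_Ramification

/-!
# S59, unit F1: the torsion of an integral model as a representation

The trace, the cyclotomic value and the kernel field of `W[p]`.
-/

set_option autoImplicit false
set_option linter.style.haveILetI false
set_option linter.unusedSectionVars false

noncomputable section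

namespace Fermat.Agent.R59

open WeierstrassCurve WeierstrassCurve.Affine.Point
open scoped WeierstrassCurve.Affine
open Fermat.Agent.GalRep (frobPoly map_frobPoly)
open Fermat.Agent.GalRep (pow_add_pow_eq_frobPoly)

local notation "Qbar" => AlgebraicClosure ℚ
local notation "GQ" => (AlgebraicClosure ℚ) ≃ₐ[ℚ] (AlgebraicClosure ℚ)

/-- `W[p]` over the algebraic closure of `ℚ`. -/
abbrev ETors (W : WeierstrassCurve ℤ) (p : ℕ) : Type :=
  Submodule.torsionBy ℤ ((W.map (Int.castRingHom ℚ)).toAffine⁄Qbar).Point (p : ℤ)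

/-- The mod `p` cyclotomic character. -/
def omg (p : ℕ) [Fact p.Prime] (g : GQ) : ZMod p :=
  PadicInt.toZMod (GalRep.cyc p g : ℤ_[p])

/-- The trace on `W[p]`. -/
abbrev trE (W : WeierstrassCurve ℤ) (p : ℕ) (g : GQ) : ZMod p :=
  galoisTrace (K := Qbar) ℚ (W.map (Int.castRingHom ℚ)).toAffine p g

/-- The decomposition group at `A` does not act on `W[p]` by scalars. -/
def DecompNonScalar (W : WeierstrassCurve ℤ) (p : ℕ) (A : ValuationSubring Qbar) : Prop :=
  ∃ σ ∈ A.decompositionSubgroup ℚ, ∀ c : ℤ, ∃ x : ETors W p, (σ : GQ) • x ≠ c • x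

theorem isElliptic_generic (W : WeierstrassCurve ℤ) (hΔ : W.Δ ≠ 0) :
    ((W.map (Int.castRingHom ℚ))⁄Qbar).IsElliptic := by
  rw [show ((W.map (Int.castRingHom ℚ))⁄Qbar : WeierstrassCurve Qbar) =
    W.map (Int.castRingHom Qbar) by
      ext <;> simp [WeierstrassCurve.baseChange], isElliptic_iff, map_Δ, eq_intCast,
    isUnit_iff_ne_zero]
  exact_mod_cast hΔ

variable (p : ℕ) [Fact p.Prime]

theorem omg_mul (g h : GQ) : omg p (g * h) = omg p g * omg p h := by
  rw [omg, omg, omg, map_mul (GalRep.cyc p), Units.val_mul, map_mul]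

theorem omg_one : omg p 1 = 1 := by
  rw [omg, map_one (GalRep.cyc p), Units.val_one, map_one]

theorem omg_pow (g : GQ) (n : ℕ) : omg p (g ^ n) = omg p g ^ n := by
  induction n with
  | zero => rw [pow_zero, pow_zero, omg_one]
  | succ n ih => rw [pow_succ, omg_mul, ih, pow_succ]

theorem omg_ne_zero (g : GQ) : omg p g ≠ 0 := fun h => by
  have h1 := omg_mul p g g⁻¹
  rw [mul_inv_cancel, h, zero_mul, omg_one] at h1
  exact one_ne_zero h1

theorem omg_conj (g h : GQ) : omg p (h⁻¹ * g * h) = omg p g := by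
  rw [omg_mul, omg_mul, mul_comm (omg p h⁻¹) (omg p g), mul_assoc, ← omg_mul, inv_mul_cancel,
    omg_one, mul_one]

theorem omg_frobenius {ℓ : ℕ} (hℓ : ℓ.Prime) (hℓp : ℓ ≠ p) {A : ValuationSubring Qbar}
    (hA : A.LiesOverPrime ℓ) {σ : GQ} (hσ : A.IsFrobeniusAt σ ℓ) : omg p σ = (ℓ : ZMod p) := by
  rw [omg, GalRep.cyc_frobenius p hℓ hℓp hA hσ, map_natCast]

theorem omg_eq_one_iff {σ : GQ} : omg p σ = 1 ↔ ∀ z : Qbar, z ^ p = 1 → σ z = z := by
  haveI : NeZero p := ⟨(Fact.out : p.Prime).ne_zero⟩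
  constructor
  · intro h z hz
    have h1 : PadicInt.toZModPow 1 (GalRep.cyc p σ : ℤ_[p]) = ((1 : ℕ) : ZMod (p ^ 1)) :=
      EC.toZModPow_eq_of_toZMod (by rw [Nat.cast_one]; exact h)
    rw [GalRep.cyc_spec p σ (k := 1) z (by rwa [pow_one]), h1, Nat.cast_one]
    haveI : Fact (1 < p ^ 1) := ⟨by rw [pow_one]; exact (Fact.out : p.Prime).one_lt⟩
    rw [ZMod.val_one, pow_one]
  · intro h
    obtain ⟨z, hz⟩ := HasEnoughRootsOfUnity.exists_primitiveRoot Qbar p
    have h1 : omg p σ = ((1 : ℕ) : ZMod p) := EC.toZMod_eq_of_toZModPow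
      (GalRep.toZModPow_cyc_eq p σ one_ne_zero (by rwa [pow_one])
        (by rw [pow_one]; exact h z hz.pow_eq_one))
    rwa [Nat.cast_one] at h1

variable (W : WeierstrassCurve ℤ)

set_option quotPrecheck false in
local notation "ρW" =>
  galoisRepModuleEnd (K := Qbar) ℚ (W.map (Int.castRingHom ℚ)).toAffine p

theorem trE_conj (g h : GQ) : trE W p (h⁻¹ * g * h) = trE W p g := by
  rw [trE, trE, galoisTrace_def, galoisTrace_def, map_mul ρW (h⁻¹ * g), LinearMap.trace_mul_comm,
    ← map_mul, ← mul_assoc, mul_inv_cancel, one_mul]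

/-- The kernel of the action on `W[p]`. -/
def eKer : Subgroup GQ where
  carrier := {σ | ∀ x : ETors W p, σ • x = x}
  one_mem' := one_smul _
  mul_mem' {σ τ} hσ hτ x := by rw [mul_smul, hτ x, hσ x]
  inv_mem' {σ} hσ x := by rw [inv_smul_eq_iff, hσ x]

theorem mem_eKer {σ : GQ} : σ ∈ eKer p W ↔ ∀ x : ETors W p, σ • x = x := Iff.rfl

/-- The field cut out by `W[p]`. -/
def eFld : IntermediateField ℚ Qbar := IntermediateField.fixedField (eKer p W)

variable [((W.map (Int.castRingHom ℚ))⁄Qbar).IsElliptic]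

theorem finrank_eTors : Module.finrank (ZMod p) (ETors W p) = 2 :=
  EC.finrank_torsionBy (K := Qbar) (W.map (Int.castRingHom ℚ)).toAffine p

theorem exists_eLevel : ∃ F : IntermediateField ℚ Qbar, FiniteDimensional ℚ F ∧
    F.fixingSubgroup ≤ eKer p W := by
  obtain ⟨F, hF, hfix⟩ := EC.exists_finite_level (K := Qbar) ℚ
    (W.map (Int.castRingHom ℚ)).toAffine p (Fact.out : p.Prime).one_le
  exact ⟨F, hF, fun σ hσ x => hfix σ ((IntermediateField.mem_fixingSubgroup_iff F σ).mp hσ) x⟩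

theorem finite_eFld : FiniteDimensional ℚ (eFld p W) := by
  obtain ⟨F, hF, hle⟩ := exists_eLevel p W
  have h : eFld p W ≤ F := by
    rw [← InfiniteGalois.fixedField_fixingSubgroup F]
    exact IntermediateField.fixedField_antitone hle
  exact FiniteDimensional.of_injective (IntermediateField.inclusion h).toLinearMap
    (IntermediateField.inclusion h).injective

theorem fixingSubgroup_eFld : (eFld p W).fixingSubgroup = eKer p W := by
  obtain ⟨F, hF, hle⟩ := exists_eLevel p W
  exact InfiniteGalois.fixingSubgroup_fixedField ⟨eKer p W, Subgroup.isClosed_of_isOpen _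
    (Subgroup.isOpen_mono hle (IntermediateField.fixingSubgroup_isOpen F))⟩

/-- An element of `G_ℚ` fixes the field iff it fixes `W[p]`. -/
theorem fix_eFld_iff {σ : GQ} :
    (∀ x ∈ eFld p W, σ x = x) ↔ ∀ x : ETors W p, σ • x = x := by
  rw [← IntermediateField.mem_fixingSubgroup_iff, fixingSubgroup_eFld, mem_eKer]

theorem normal_eFld : Normal ℚ (eFld p W) := by
  haveI : Normal ℚ Qbar := IsGalois.to_normal
  refine IntermediateField.normal_iff_forall_map_le'.mpr ?_
  rintro σ _ ⟨x, hx, rfl⟩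
  show σ x ∈ eFld p W
  rw [eFld, IntermediateField.mem_fixedField_iff]
  intro τ hτ
  have hc : σ⁻¹ * τ * σ ∈ eKer p W := fun y => by
    rw [mul_smul, mul_smul, hτ, inv_smul_smul]
  have h := (IntermediateField.mem_fixedField_iff _ x).mp hx _ hc
  rw [AlgEquiv.mul_apply, AlgEquiv.mul_apply] at h
  have := congrArg σ h
  rwa [← AlgEquiv.mul_apply σ σ⁻¹, mul_inv_cancel, AlgEquiv.one_apply] at this

theorem trE_of_mem_eKer {g : GQ} (hg : g ∈ eKer p W) : trE W p g = 2 := by
  have hrk := finrank_eTors p W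
  haveI : Module.Finite (ZMod p) (ETors W p) := Module.finite_of_finrank_eq_succ hrk
  rw [trE, galoisTrace_def, show ρW g = 1 from LinearMap.ext fun x => hg x, LinearMap.trace_one,
    hrk]
  norm_num

variable (hp2 : p ≠ 2) (hΔ : W.Δ ≠ 0)
include hp2 hΔ

theorem det_eq_omg (σ : GQ) : LinearMap.det (ρW σ) = omg p σ :=
  EC.det_torsion_eq_cyc W p hp2 hΔ σ

theorem omg_of_mem_eKer {σ : GQ} (hσ : σ ∈ eKer p W) : omg p σ = 1 := by
  rw [← det_eq_omg p W hp2 hΔ, show ρW σ = 1 from LinearMap.ext fun x => hσ x, map_one]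

/-- The relation `g + ω(g) g⁻¹ = tr(g)` on `W[p]`. -/
theorem eRel (g : GQ) : ρW g + omg p g • ρW g⁻¹ = trE W p g • 1 := by
  classical
  have hrk := finrank_eTors p W
  haveI : Module.Finite (ZMod p) (ETors W p) := Module.finite_of_finrank_eq_succ hrk
  set bs := Module.finBasisOfFinrankEq (ZMod p) _ hrk
  have hsq : ρW g * ρW g + omg p g • 1 = trE W p g • ρW g := by
    set e := LinearMap.toMatrixAlgEquiv bs
    set M := e (ρW g) with hM
    have d2 : M.det = omg p g :=
      (LinearMap.det_toMatrix bs _).trans (det_eq_omg p W hp2 hΔ g)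
    have d1 : M.trace = trE W p g :=
      (LinearMap.trace_eq_matrix_trace (ZMod p) bs _).symm
    apply e.injective
    rw [map_add, map_smul, map_smul, map_one, map_mul, ← hM, ← d1, ← d2]
    ext i j
    fin_cases i <;> fin_cases j <;>
      simp [Matrix.mul_apply, Fin.sum_univ_two, Matrix.det_fin_two, Matrix.trace_fin_two] <;> ring
  have h := congrArg (· * ρW g⁻¹) hsq
  simp only [add_mul, mul_assoc, smul_mul_assoc, ← map_mul, mul_inv_cancel, map_one, mul_one,
    one_mul] at h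
  exact h

/-- The trace of a power of an element with trace `a` and cyclotomic value `l`. -/
theorem trE_pow {σ : GQ} {a : ZMod p} {l : ℕ} (ha : trE W p σ = a) (hl : omg p σ = l) (b : ℕ) :
    trE W p (σ ^ b) = frobPoly a (l : ZMod p) b := by
  haveI := EC.nontrivial_torsionBy (K := Qbar) (W.map (Int.castRingHom ℚ)).toAffine p
  have h1 := eRel p W hp2 hΔ σ
  rw [ha, hl, Nat.cast_smul_eq_nsmul, nsmul_eq_mul] at h1
  have h2 := pow_add_pow_eq_frobPoly (F := ρW σ) (G := ρW σ⁻¹)
    (by rw [← map_mul, mul_inv_cancel, map_one]) (by rw [← map_mul, inv_mul_cancel, map_one]) h1 b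
  have h3 := eRel p W hp2 hΔ (σ ^ b)
  rw [omg_pow, hl, map_pow, ← inv_pow, map_pow, ← Nat.cast_pow, Nat.cast_smul_eq_nsmul,
    nsmul_eq_mul, Nat.cast_pow, h2] at h3
  have h4 := map_frobPoly (algebraMap (ZMod p) (Module.End (ZMod p) (ETors W p))) a (l : ZMod p) b
  rw [map_natCast, Algebra.algebraMap_eq_smul_one, Algebra.algebraMap_eq_smul_one, h3] at h4
  exact (smul_left_injective (ZMod p) one_ne_zero h4).symm

omit [((W.map (Int.castRingHom ℚ))⁄Qbar).IsElliptic] in
/-- The trace of Frobenius on `W[p]` is `a_ℓ`. -/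
theorem trE_frobenius {ℓ : ℕ} (hℓ : ℓ.Prime) (hgood : W.IsGoodPrimeFor ℓ) (hℓp : ℓ ≠ p)
    {A : ValuationSubring Qbar} (hA : A.LiesOverPrime ℓ) {σ : GQ} (hσ : A.IsFrobeniusAt σ ℓ) :
    trE W p σ = (W.apOfModel ℓ : ZMod p) ∧ omg p σ = (ℓ : ZMod p) :=
  ⟨(EC.galoisTrace_frobenius W hℓ hgood hA hσ Fact.out hp2 hℓp.symm).1,
    omg_frobenius p hℓ hℓp hA hσ⟩

end Fermat.Agent.R59
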