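import Fermat.Agent.R59.Mazur.Basic
import Fermat.Agent.GalRep.Wild.Space
import Fermat.Agent.GalRep.Wild.Theta
import Fermat.Prelude.Def_FLTPrelim_ModularRep

/-!
# S59, unit F1: eigenclasses modulo `p` carrying the traces of `W[p]`
-/

set_option autoImplicit false
set_option linter.style.haveILetI false
set_option linter.unusedSectionVars false

noncomputable section

namespace Fermat.Agent.R59

open CongruenceSubgroup ModularFormClass
open WeierstrassCurve WeierstrassCurve.Affine.Point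
open scoped WeierstrassCurve.Affine
open scoped IsMulCommutative
open Fermat.Agent.GalRep
open Fermat.Agent.GalRep.Wild (red1 red1_smul exists_smul_of_red1 heckeHomAt_red1 galois_red1
  exists_fixed_of_unipotent trace_pow_eq_frobPoly)
open Fermat.Agent.Galois (GQ)

variable (p : ℕ) [Fact p.Prime] (W : WeierstrassCurve ℤ)

section Reduction

variable {N : ℕ} [NeZero N] [((W.map (Int.castRingHom ℚ))⁄(AlgebraicClosure ℚ)).IsElliptic]
  (hp2 : p ≠ 2) (hΔ : W.Δ ≠ 0)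
include hp2 hΔ

set_option maxHeartbeats 1000000 in
/-- A congruence eigenform gives an eigenclass modulo `p` with the traces of `W[p]`. -/
theorem exists_eigenClass [NeZero p] {f : CuspForm (Gamma0 N) 2} (hf : f.IsNormalizedEigenform)
    {𝔪 : Ideal (integralClosure ℤ ℂ)} (h𝔪 : 𝔪.IsMaximal)
    (hp𝔪 : (p : integralClosure ℤ ℂ) ∈ 𝔪)
    (hmod : ∀ ℓ : ℕ, ℓ.Prime → W.IsGoodPrimeFor ℓ → ¬ ℓ ∣ N → ℓ ≠ p →
      ∃ a : integralClosure ℤ ℂ, (a : ℂ) = ModularFormClass.qCoeff f ℓ ∧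
        a - ((W.apOfModel ℓ : ℤ) : integralClosure ℤ ℂ) ∈ 𝔪)
    (S : Finset ℕ) (hS : ∀ ℓ : ℕ, ℓ.Prime → ℓ ∉ S → W.IsGoodPrimeFor ℓ ∧ ℓ ≠ p) :
    ∃ χ : ParHom N (ZMod p), χ ≠ 0 ∧
      (∀ ℓ : GoodPrime N, ((ℓ : Nat.Primes) : ℕ) ∉ S →
        heckeHomAt ℓ χ = W.apOfModel ((ℓ : Nat.Primes) : ℕ) • χ) ∧
      ∀ g, (kummerGalois N p).galois g χ +
          (omg p g).val • (kummerGalois N p).galois g⁻¹ χ = (trE W p g).val • χ := by
  classical
  haveI : ∀ k, NeZero (p ^ k) := fun k => ⟨pow_ne_zero k (Fact.out : p.Prime).ne_zero⟩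
  let D : EichlerShimuraDatum N p :=
    eichlerShimuraDatum (fun k => kummerGalois N (p ^ k)) (kummerCompat N)
      (fun k => kummerHeckeComm N (p ^ k)) (kummerFrobenius N (Model.kummerReduction N))
  letI := Ideal.Quotient.field 𝔪
  set k := integralClosure ℤ ℂ ⧸ 𝔪
  haveI : CharP k p := by
    refine (CharP.charP_iff_prime_eq_zero (Fact.out : p.Prime)).mpr ?_
    rw [← map_natCast (Ideal.Quotient.mk 𝔪), Ideal.Quotient.eq_zero_iff_mem]
    exact hp𝔪
  letI := padicAlgebraOfCharP (p := p) k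
  have hp0 : (p : k) = 0 := CharP.cast_eq_zero k p
  obtain ⟨χ₀, hχ₀⟩ := exists_eigenCharacter hf (↑S : Set ℕ)
  obtain ⟨ψ, hψ, hψc⟩ := exists_extension (D := D) (I := ⊥) (by rw [hp0]; exact zero_mem _)
    (fun r hr => by simpa using hr 1) ((Ideal.Quotient.mk 𝔪).comp χ₀)
  have hgen : ∀ i : GoodPrimeOff N (↑S : Set ℕ),
      ψ (heckeGen D _ i) = (W.apOfModel ((i.1 : Nat.Primes) : ℕ) : k) := by
    rintro ⟨⟨⟨ℓ, hℓ⟩, hℓN⟩, hℓS⟩
    obtain ⟨hgood, hℓp⟩ := hS ℓ hℓ hℓS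
    obtain ⟨a, ha, ham⟩ := hmod ℓ hℓ hgood hℓN hℓp
    rw [hψ]
    have he : χ₀ (CuspForm.heckeAlgebra.T hℓ hℓN hℓS) = a :=
      Subtype.ext ((hχ₀ ℓ hℓ hℓN hℓS).trans ha.symm)
    show Ideal.Quotient.mk 𝔪 (χ₀ (CuspForm.heckeAlgebra.T hℓ hℓN hℓS)) = _
    rw [he, ← map_intCast (Ideal.Quotient.mk 𝔪), Ideal.Quotient.eq]
    exact ham
  obtain ⟨m, hm⟩ := hψc 1
  have hm0 : ∀ c : heckeClosure D (↑S : Set ℕ),
      (∃ f', (c : Module.End ℤ_[p] D.L) = (p ^ m : ℤ_[p]) • f') → ψ c = 0 := fun c hc => by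
    simpa using hm c hc
  -- the universal trace has the eigenvalue of the trace on `W[p]`
  have htr : ∀ g, ψ ⟨uTrace D g, uTrace_mem D frobeniusPowDensity S g⟩ =
      ((trE W p g).val : k) := fun g => by
    obtain ⟨F, hF, hFev⟩ := exists_level_eigen D S ψ hm frobeniusPowDensity
    obtain ⟨L, hL, hLfix⟩ :=
      EC.exists_finite_level ℚ (W.map (Int.castRingHom ℚ)).toAffine (K := AlgebraicClosure ℚ) p (Fact.out : p.Prime).one_le
    obtain ⟨ℓ, hℓ, hbad, A, hA, σ, hσ, b, hb⟩ :=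
      frobeniusPowDensity (F ⊔ L) (S ∪ N.primeFactors) g
    simp only [Finset.mem_union, not_or] at hbad
    have hℓN : ¬ ℓ ∣ N := fun h => hbad.2 (Nat.mem_primeFactors.mpr ⟨hℓ, h, NeZero.ne N⟩)
    obtain ⟨hgood, hℓp⟩ := hS ℓ hℓ hbad.1
    let i : GoodPrimeOff N (↑S : Set ℕ) := ⟨⟨⟨ℓ, hℓ⟩, hℓN⟩, fun h => hbad.1 (by simpa using h)⟩
    have h1 := hFev g σ i A b hℓp hA hσ fun x hx => hb x ((le_sup_left : F ≤ F ⊔ L) hx)
    rw [Submodule.pow_one, Ideal.mem_bot, sub_eq_zero, hgen] at h1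
    obtain ⟨hta, htω⟩ := trE_frobenius p W hp2 hΔ hℓ hgood hℓp hA hσ
    have hg : trE W p g = trE W p (σ ^ b) := by
      have e : galoisRepModuleEnd (K := AlgebraicClosure ℚ) ℚ (W.map (Int.castRingHom ℚ)).toAffine p
          ((σ ^ b)⁻¹ * g) = 1 := LinearMap.ext fun Q => hLfix _ (fun x hx => by
        rw [AlgEquiv.mul_apply, ← hb x ((le_sup_right : L ≤ F ⊔ L) hx)]
        exact (σ ^ b).symm_apply_apply x) Q
      rw [trE, trE, galoisTrace_def, galoisTrace_def]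
      conv_lhs => rw [← mul_inv_cancel_left (σ ^ b) g, map_mul, e, mul_one]
    rw [h1, hg, trE_pow p W hp2 hΔ hta htω b]
    have h2 := map_frobPoly (ZMod.castHom (dvd_refl p) k) (W.apOfModel ℓ : ZMod p)
      (ℓ : ZMod p) b
    rw [map_intCast, map_natCast] at h2
    conv_rhs => rw [← map_natCast (ZMod.castHom (dvd_refl p) k), ZMod.natCast_zmod_val, h2]
  -- a vector of the lattice modulo `p` killed by the kernel
  haveI : Module.Finite ℤ_[p] (heckeClosure D (↑S : Set ℕ)) :=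
    Module.Finite.of_injective (heckeClosure D (↑S : Set ℕ)).val.toLinearMap Subtype.val_injective
  haveI : IsNoetherianRing (heckeClosure D (↑S : Set ℕ)) := IsNoetherianRing.of_finite ℤ_[p] _
  haveI : Algebra.IsIntegral ℤ_[p] (heckeClosure D (↑S : Set ℕ)) := Algebra.IsIntegral.of_finite _ _
  haveI : Module.Finite (heckeClosure D (↑S : Set ℕ)) D.L :=
    Module.Finite.of_restrictScalars_finite ℤ_[p] _ _
  let pC : heckeClosure D (↑S : Set ℕ) := (p : ℕ)
  let pL : Submodule (heckeClosure D (↑S : Set ℕ)) D.L :=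
    LinearMap.range (LinearMap.lsmul (heckeClosure D (↑S : Set ℕ)) D.L pC)
  have hpC : ∀ x : D.L, pC • x = (p : ℤ_[p]) • x := fun x => by
    show ((p : ℕ) : heckeClosure D (↑S : Set ℕ)) • x = _
    rw [Nat.cast_smul_eq_nsmul, Nat.cast_smul_eq_nsmul]
  have hann : Module.annihilator (heckeClosure D (↑S : Set ℕ)) (D.L ⧸ pL) ≤ RingHom.ker ψ := by
    intro c hc
    have h1 : ∀ v : D.L, ∃ w, (c : Module.End ℤ_[p] D.L) v = (p ^ 1 : ℤ_[p]) • w := by
      intro v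
      have h := Module.mem_annihilator.mp hc (Submodule.Quotient.mk v)
      rw [← Submodule.Quotient.mk_smul, Submodule.Quotient.mk_eq_zero] at h
      obtain ⟨w, hw⟩ := h
      exact ⟨w, by rw [pow_one, ← hpC]; exact hw.symm⟩
    obtain ⟨f', hf'⟩ := exists_smul_of_forall (D := D) h1
    have h2 : ψ (c ^ m) = 0 := hm0 _ ⟨f' ^ m, by
      rw [SubmonoidClass.coe_pow, hf', pow_one, smul_pow]⟩
    rw [map_pow] at h2
    exact eq_zero_of_pow_eq_zero h2
  have hmin : RingHom.ker ψ ∈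
      (Module.annihilator (heckeClosure D (↑S : Set ℕ)) (D.L ⧸ pL)).minimalPrimes := by
    haveI : (RingHom.ker ψ).IsPrime := RingHom.ker_isPrime _
    refine ⟨⟨inferInstance, hann⟩, fun Q hQ hQP => ?_⟩
    haveI : Q.IsPrime := hQ.1
    have hpQ : pC ∈ Q := hQ.2 (Module.mem_annihilator.mpr fun x => by
      obtain ⟨v, rfl⟩ := Submodule.Quotient.mk_surjective _ x
      rw [← Submodule.Quotient.mk_smul, Submodule.Quotient.mk_eq_zero]
      exact ⟨v, rfl⟩)
    have hcomap : Q.comap (algebraMap ℤ_[p] (heckeClosure D (↑S : Set ℕ))) =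
        IsLocalRing.maximalIdeal ℤ_[p] := by
      refine ((IsLocalRing.maximalIdeal.isMaximal ℤ_[p]).eq_of_le
        (Ideal.IsPrime.ne_top inferInstance) ?_).symm
      rw [PadicInt.maximalIdeal_eq_span_p, Ideal.span_singleton_le_iff_mem, Ideal.mem_comap,
        map_natCast]
      exact hpQ
    haveI : (Q.comap (algebraMap ℤ_[p] (heckeClosure D (↑S : Set ℕ)))).IsMaximal := by
      rw [hcomap]; infer_instance
    haveI hQmax : Q.IsMaximal := Ideal.isMaximal_of_isIntegral_of_isMaximal_comap (R := ℤ_[p]) Q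
      inferInstance
    exact (hQmax.eq_of_le (Ideal.IsPrime.ne_top ‹(RingHom.ker ψ).IsPrime›) hQP).ge
  obtain ⟨-, y, hy⟩ := isAssociatedPrime_iff.1
    (Module.associatedPrimes.minimalPrimes_annihilator_subset_associatedPrimes _ _ hmin)
  obtain ⟨x, rfl⟩ := Submodule.Quotient.mk_surjective _ y
  have hker : ∀ c : heckeClosure D (↑S : Set ℕ), ψ c = 0 →
      red1 ((c : Module.End ℤ_[p] D.L) x) = 0 := fun c hc => by
    have h1 : c ∈ RingHom.ker ψ := hc
    rw [hy, Submodule.mem_colon_singleton, Submodule.mem_bot, ← Submodule.Quotient.mk_smul,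
      Submodule.Quotient.mk_eq_zero] at h1
    obtain ⟨w, hw⟩ := h1
    have hw' : (p : ℤ_[p]) • w = (c : Module.End ℤ_[p] D.L) x := (hpC w).symm.trans hw
    rw [← hw']
    exact (red1_smul _ _).trans (by rw [map_natCast, ZMod.natCast_self, ZMod.val_zero, zero_smul])
  refine ⟨red1 (x : Lat N p), fun h0 => ?_, fun ℓ hℓ => ?_, fun g => ?_⟩
  · obtain ⟨w, hw⟩ := exists_smul_of_red1 h0
    have h1 : (1 : heckeClosure D (↑S : Set ℕ)) ∈ RingHom.ker ψ := by
      rw [hy, Submodule.mem_colon_singleton, one_smul, Submodule.mem_bot,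
        Submodule.Quotient.mk_eq_zero]
      exact ⟨w, (hpC w).trans hw.symm⟩
    rw [RingHom.mem_ker, map_one] at h1
    exact one_ne_zero h1
  · let i : GoodPrimeOff N (↑S : Set ℕ) := ⟨ℓ, fun h => hℓ (by simpa using h)⟩
    have h := hker (heckeGen D _ i - (W.apOfModel ((ℓ : Nat.Primes) : ℕ) : heckeClosure D (↑S : Set ℕ)))
      (by rw [map_sub, hgen, map_intCast, sub_self])
    rw [AddSubgroupClass.coe_sub, coe_heckeGen, LinearMap.sub_apply, SubringClass.coe_intCast,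
      Module.End.intCast_apply] at h
    exact heckeHomAt_red1 x h
  · have h := hker (⟨uTrace D g, uTrace_mem D frobeniusPowDensity S g⟩ -
      ((trE W p g).val : heckeClosure D (↑S : Set ℕ))) (by
        rw [map_sub, htr, map_natCast, sub_self])
    have hcast : (((trE W p g).val : heckeClosure D (↑S : Set ℕ)) :
        Module.End ℤ_[p] D.L) = ((trE W p g).val : Module.End ℤ_[p] D.L) :=
      map_natCast (heckeClosure D (↑S : Set ℕ)).val _
    rw [AddSubgroupClass.coe_sub, hcast, LinearMap.sub_apply, Module.End.natCast_apply] at h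
    exact galois_red1 x h


end Reduction

section Space

attribute [local irreducible] kummerGalois autChar

variable {N : ℕ} [NeZero N] [NeZero p] (S : Finset ℕ)

/-- An eigenclass with the traces of `W[p]`. -/
structure IsEigenW (χ : ParHom N (ZMod p)) : Prop where
  hecke : ∀ ℓ : GoodPrime N, ((ℓ : Nat.Primes) : ℕ) ∉ S →
    heckeHomAt ℓ χ = W.apOfModel ((ℓ : Nat.Primes) : ℕ) • χ
  rel : ∀ g, (kummerGalois N p).galois g χ +
    (omg p g).val • (kummerGalois N p).galois g⁻¹ χ = (trE W p g).val • χ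

theorem galois_heckeAt (ℓ : GoodPrime N) (h : GQ) (χ : ParHom N (ZMod p)) :
    heckeHomAt ℓ ((kummerGalois N p).galois h χ) =
      (kummerGalois N p).galois h (heckeHomAt ℓ χ) :=
  (eq_heckeHom (goodIndex ℓ) (kummerHeckeComm N p (kummerGalois N p) ℓ h _ _
    (isHeckeTransfer_heckeHom (goodIndex ℓ) χ))).symm

variable {p S W}

theorem IsEigenW.galois {χ : ParHom N (ZMod p)} (hχ : IsEigenW p W S χ) (h : GQ) :
    IsEigenW p W S ((kummerGalois N p).galois h χ) := by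
  refine ⟨fun ℓ hℓ => by rw [galois_heckeAt, hχ.hecke ℓ hℓ, map_zsmul], fun g => ?_⟩
  have h1 := congrArg ((kummerGalois N p).galois h) (hχ.rel (h⁻¹ * g * h))
  rw [map_add, map_nsmul, map_nsmul, trE_conj p W g h, omg_conj p g h] at h1
  rw [← h1]
  simp only [← Module.End.mul_apply, ← map_mul]
  simp only [mul_inv_rev, inv_inv, mul_assoc, mul_inv_cancel_left]

theorem IsEigenW.add {x y : ParHom N (ZMod p)} (hx : IsEigenW p W S x)
    (hy : IsEigenW p W S y) : IsEigenW p W S (x + y) :=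
  ⟨fun ℓ hℓ => by rw [map_add, smul_add, hx.hecke ℓ hℓ, hy.hecke ℓ hℓ],
    fun g => by rw [map_add, map_add, smul_add, smul_add, ← hx.rel g, ← hy.rel g]; abel⟩

theorem IsEigenW.neg {x : ParHom N (ZMod p)} (hx : IsEigenW p W S x) :
    IsEigenW p W S (-x) :=
  ⟨fun ℓ hℓ => by rw [map_neg, hx.hecke ℓ hℓ, smul_neg],
    fun g => by rw [map_neg, map_neg, smul_neg, smul_neg, ← neg_add, hx.rel g]⟩

theorem isEigenW_zero : IsEigenW p W S (0 : ParHom N (ZMod p)) :=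
  ⟨fun ℓ _ => by rw [_root_.map_zero, smul_zero],
    fun g => by rw [_root_.map_zero, _root_.map_zero, smul_zero, add_zero, smul_zero]⟩

variable (p) (N) (W) (S) in
/-- Eigenclasses fixed by the kernel of `W[p]`. -/
def eigenSet : AddSubgroup (ParHom N (ZMod p)) where
  carrier := {χ | IsEigenW p W S χ ∧ ∀ g ∈ eKer p W, (kummerGalois N p).galois g χ = χ}
  add_mem' := fun hx hy => ⟨hx.1.add hy.1, fun g hg => by rw [map_add, hx.2 g hg, hy.2 g hg]⟩
  zero_mem' := ⟨isEigenW_zero, fun g _ => _root_.map_zero _⟩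
  neg_mem' := fun hx => ⟨hx.1.neg, fun g hg => by rw [map_neg, hx.2 g hg]⟩

theorem parHom_nsmul_eq_zero (x : ParHom N (ZMod p)) : p • x = 0 :=
  Subtype.ext (AddMonoidHom.ext fun y => by
    rw [Submodule.coe_smul_of_tower, AddMonoidHom.smul_apply, nsmul_eq_mul, ZMod.natCast_self,
      zero_mul]
    rfl)

variable [((W.map (Int.castRingHom ℚ))⁄(AlgebraicClosure ℚ)).IsElliptic]

/-- A nonzero eigenclass gives one fixed by the kernel of `W[p]`. -/
theorem exists_fixed_eigenW (hp2 : p ≠ 2) (hΔ : W.Δ ≠ 0) {χ : ParHom N (ZMod p)} (h0 : χ ≠ 0) (hχ : IsEigenW p W S χ) :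
    ∃ ψ ∈ eigenSet p W N S, ψ ≠ 0 := by
  let X : AddSubgroup (ParHom N (ZMod p)) :=
    { carrier := {x | IsEigenW p W S x}
      add_mem' := fun hx hy => hx.add hy
      zero_mem' := isEigenW_zero
      neg_mem' := fun hx => hx.neg }
  obtain ⟨ψ, hψ, hψ0, hψfix⟩ := exists_fixed_of_unipotent (p := p)
    ((kummerGalois N p).galois.comp (eKer p W).subtype) X parHom_nsmul_eq_zero
    (fun g x hx => IsEigenW.galois hx g.1)
    (fun g x hx => by
      have h := IsEigenW.rel hx g.1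
      rw [omg_of_mem_eKer p W hp2 hΔ g.2, trE_of_mem_eKer p W g.2, ZMod.val_one,
        one_smul, show ((2 : ZMod p)).val = 2 by
          rw [show (2 : ZMod p) = ((2 : ℕ) : ZMod p) by norm_num]
          exact ZMod.val_cast_of_lt (by have := (Fact.out : p.Prime).two_le; omega)] at h
      exact h)
    (show χ ∈ X from hχ) h0
  exact ⟨ψ, ⟨hψ, fun g hg => hψfix ⟨g, hg⟩⟩, hψ0⟩


end Space

section Theta

variable {m : ℕ} [NeZero m] [((W.map (Int.castRingHom ℚ))⁄(AlgebraicClosure ℚ)).IsElliptic]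
  (hp2 : p ≠ 2) (hΔ : W.Δ ≠ 0)
include hp2 hΔ

/-- A character modulo `p` with the eigenvalues `a_ℓ(W)` outside a finite set gives residual
modularity of the level. -/
theorem residuallyModular_of_theta
    (S : Finset ℕ) (hS : ∀ ℓ : ℕ, ℓ.Prime → ℓ ∉ S → W.IsGoodPrimeFor ℓ ∧ ℓ ≠ p)
    (hmS : ∀ q : ℕ, q.Prime → q ∣ m → q ∈ S) {k : Type*} [Field k] [CharP k p]
    (θ : CuspForm.heckeAlgebra m 2 (↑S : Set ℕ) →+* k)
    (hθ : ∀ (ℓ : ℕ) (hℓ : ℓ.Prime) (hℓm : ¬ ℓ ∣ m) (hℓS : ℓ ∉ (↑S : Set ℕ)),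
      θ (CuspForm.heckeAlgebra.T hℓ hℓm hℓS) = (W.apOfModel ℓ : k)) :
    W.IsResiduallyModularOfLevel p m := by
  classical
  obtain ⟨f, χ, hf, hker, -, hχ⟩ := Newform.exists_eigenform_of_ringHom (↑S : Set ℕ) θ
  obtain ⟨χ', hχ'⟩ := exists_eigenCharacter hf (↑S : Set ℕ)
  have hcomp : (integralClosure ℤ ℂ).val.toRingHom.comp χ' = χ :=
    Newform.heckeHom_ext (fun q hq hqm => hmS q hq hqm) fun ℓ hℓ hℓm hℓS =>
      (hχ' ℓ hℓ hℓm hℓS).trans (hχ ℓ hℓ hℓm hℓS).symm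
  have hker' : RingHom.ker χ'.rangeRestrict ≤ RingHom.ker θ := fun t ht => hker (by
    rw [RingHom.mem_ker] at ht ⊢
    rw [← hcomp, RingHom.comp_apply, show χ' t = 0 from congrArg Subtype.val ht]; exact _root_.map_zero _)
  let θ' : χ'.range →+* k :=
    RingHom.liftOfSurjective χ'.rangeRestrict χ'.rangeRestrict_surjective ⟨θ, hker'⟩
  have hθ' : ∀ t, θ' (χ'.rangeRestrict t) = θ t := fun t =>
    RingHom.liftOfSurjective_comp_apply _ _ _ t
  haveI : Algebra.IsIntegral χ'.range (integralClosure ℤ ℂ) :=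
    ⟨fun x => IsIntegral.tower_top (R := ℤ) (Algebra.IsIntegral.isIntegral x)⟩
  haveI : (RingHom.ker θ').IsPrime := RingHom.ker_isPrime θ'
  obtain ⟨𝔪, -, h𝔪, hcomap⟩ := Ideal.exists_ideal_over_prime_of_isIntegral (RingHom.ker θ')
    (⊥ : Ideal (integralClosure ℤ ℂ)) (by
      intro x hx
      rw [Ideal.mem_comap, Ideal.mem_bot] at hx
      rw [RingHom.mem_ker, show x = 0 from Subtype.ext hx]; exact _root_.map_zero _)
  have hp : (p : integralClosure ℤ ℂ) ∈ 𝔪 := by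
    have : (p : χ'.range) ∈ RingHom.ker θ' := by
      rw [RingHom.mem_ker, map_natCast, CharP.cast_eq_zero]
    rw [← hcomap, Ideal.mem_comap, map_natCast] at this
    exact this
  haveI := h𝔪
  have hmax : 𝔪.IsMaximal := by
    refine Ideal.isMaximal_of_isIntegral_of_isMaximal_comap (R := ℤ) _ (Ideal.IsPrime.isMaximal inferInstance ?_)
    intro h
    have h1 : ((p : ℤ)) ∈ 𝔪.comap (algebraMap ℤ (integralClosure ℤ ℂ)) := by
      rw [Ideal.mem_comap, map_natCast]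
      exact hp
    rw [h, Submodule.mem_bot] at h1
    exact (Fact.out : p.Prime).ne_zero (by exact_mod_cast h1)
  letI : Field (integralClosure ℤ ℂ ⧸ 𝔪) := Ideal.Quotient.field 𝔪
  haveI : CharP (integralClosure ℤ ℂ ⧸ 𝔪) p := by
    refine (CharP.charP_iff_prime_eq_zero (Fact.out : p.Prime)).mpr ?_
    rw [← map_natCast (Ideal.Quotient.mk 𝔪), Ideal.Quotient.eq_zero_iff_mem]
    exact hp
  have hout : ∀ ℓ : ℕ, ℓ.Prime → ¬ ℓ ∣ m → ℓ ∉ S → ∀ a : integralClosure ℤ ℂ,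
      (a : ℂ) = qCoeff ⇑f ℓ → Ideal.Quotient.mk 𝔪 a = (W.apOfModel ℓ : integralClosure ℤ ℂ ⧸ 𝔪) := by
    intro ℓ hℓ hℓm hℓS a ha
    have hℓS' : ℓ ∉ (↑S : Set ℕ) := by simpa using hℓS
    have he : a = χ' (CuspForm.heckeAlgebra.T hℓ hℓm hℓS') :=
      Subtype.ext (ha.trans (hχ' ℓ hℓ hℓm hℓS').symm)
    have h0 : χ'.rangeRestrict (CuspForm.heckeAlgebra.T hℓ hℓm hℓS' -
        ((W.apOfModel ℓ : ℤ) : CuspForm.heckeAlgebra m 2 (↑S : Set ℕ))) ∈
        RingHom.ker θ' := by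
      rw [RingHom.mem_ker, hθ', map_sub, map_intCast, hθ, sub_self]
    rw [← hcomap, Ideal.mem_comap] at h0
    rw [← map_intCast (Ideal.Quotient.mk 𝔪), Ideal.Quotient.eq, he]
    have h0' : χ' (CuspForm.heckeAlgebra.T hℓ hℓm hℓS' -
        ((W.apOfModel ℓ : ℤ) : CuspForm.heckeAlgebra m 2 (↑S : Set ℕ))) ∈ 𝔪 := h0
    rwa [map_sub, map_intCast] at h0'
  haveI : ∀ j, NeZero (p ^ j) := fun j => ⟨pow_ne_zero j (Fact.out : p.Prime).ne_zero⟩
  obtain ⟨D⟩ := nonempty_datum (fun M => Model.kummerReduction M) m p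
  obtain ⟨r, hr, hfrob, -⟩ := exists_residual_matrix D hf (Ideal.Quotient.mk 𝔪)
  obtain ⟨L₁, hL₁, h1⟩ := hr
  obtain ⟨L₂, hL₂, h2⟩ :=
    EC.exists_finite_level ℚ (W.map (Int.castRingHom ℚ)).toAffine (K := AlgebraicClosure ℚ) p (Fact.out : p.Prime).one_le
  haveI := hL₁
  haveI := hL₂
  -- the traces agree everywhere
  have hall : ∀ g : GQ, (r g).trace = ZMod.castHom (dvd_refl p) (integralClosure ℤ ℂ ⧸ 𝔪) (trE W p g) := by
    intro g
    obtain ⟨ℓ, hℓ, hbad, A, hA, σ, hσ, b, hb⟩ :=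
      frobeniusPowDensity (L₁ ⊔ L₂) (S ∪ m.primeFactors) g
    simp only [Finset.mem_union, not_or] at hbad
    have hℓm : ¬ ℓ ∣ m := fun h => hbad.2 (Nat.mem_primeFactors.mpr ⟨hℓ, h, NeZero.ne m⟩)
    obtain ⟨hgood, hℓp⟩ := hS ℓ hℓ hbad.1
    obtain ⟨a, ha, htr, hdet⟩ := hfrob ℓ hℓ hℓm hℓp A hA σ hσ
    rw [hout ℓ hℓ hℓm hbad.1 a ha] at htr
    obtain ⟨hta, htω⟩ := trE_frobenius p W hp2 hΔ hℓ hgood hℓp hA hσ
    have hfix : ∀ x ∈ L₁ ⊔ L₂, ((σ ^ b)⁻¹ * g) x = x := fun x hx => by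
      rw [AlgEquiv.mul_apply, ← hb x hx]
      exact (σ ^ b).symm_apply_apply x
    have e1 : r ((σ ^ b)⁻¹ * g) = 1 :=
      h1 _ fun x hx => hfix x ((le_sup_left : L₁ ≤ L₁ ⊔ L₂) hx)
    have e2 : galoisRepModuleEnd (K := AlgebraicClosure ℚ) ℚ (W.map (Int.castRingHom ℚ)).toAffine p
        ((σ ^ b)⁻¹ * g) = 1 :=
      LinearMap.ext fun Q => h2 _ (fun x hx => hfix x ((le_sup_right : L₂ ≤ L₁ ⊔ L₂) hx)) Q
    have hg : trE W p g = trE W p (σ ^ b) := by
      rw [trE, trE, galoisTrace_def, galoisTrace_def]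
      conv_lhs => rw [← mul_inv_cancel_left (σ ^ b) g, map_mul, e2, mul_one]
    have hg' : r g = r (σ ^ b) := by
      conv_lhs => rw [← mul_inv_cancel_left (σ ^ b) g, map_mul, e1, mul_one]
    rw [hg', trace_pow_eq_frobPoly r htr hdet b, hg, trE_pow p W hp2 hΔ hta htω b, map_frobPoly,
      map_intCast, map_natCast]
  refine ⟨f, 𝔪, hf, hmax, hp, fun ℓ hℓ hgood hℓm hℓp => ?_⟩
  obtain ⟨A, hA⟩ := Galois.exists_liesOverPrime hℓ
  obtain ⟨σ, hσ⟩ := Galois.exists_isFrobeniusAt hℓ hA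
  obtain ⟨a, ha, htr, -⟩ := hfrob ℓ hℓ hℓm hℓp A hA σ hσ
  refine ⟨a, ha, ?_⟩
  rw [hall, (trE_frobenius p W hp2 hΔ hℓ hgood hℓp hA hσ).1, map_intCast,
    ← map_intCast (Ideal.Quotient.mk 𝔪)] at htr
  exact Ideal.Quotient.eq.mp htr.symm


end Theta

end Fermat.Agent.R59
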