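import Fermat.Agent.R59.Mazur.Basic
import Fermat.Agent.GalRep.Wild.NonEisenstein
import Fermat.Prelude.Def_FLTPrelim_ModularRep

/-!
# S59, unit F1: scalar elements and non-Eisenstein primes for an irreducible `W[p]`
-/

set_option autoImplicit false
set_option linter.style.haveILetI false
set_option linter.unusedSectionVars false

noncomputable section

namespace Fermat.Agent.R59

open WeierstrassCurve WeierstrassCurve.Affine.Point
open scoped WeierstrassCurve.Affine
open Fermat.Agent.EC (finrank_torsionBy)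
open Fermat.Agent.GalRep (pow_add_pow_eq_frobPoly)
open Fermat.Agent.GalRep.Wild (exists_fixed_of_unipotent natCast_eq_one_of_frobenius_fix)
open Fermat.Agent.GalRep.Semistable (conjQ conjQ_mul_self conjQ_root_of_unity)

local notation "Qbar" => AlgebraicClosure ℚ
local notation "GQ" => (AlgebraicClosure ℚ) ≃ₐ[ℚ] (AlgebraicClosure ℚ)

variable (p : ℕ) [Fact p.Prime]

theorem two_ne_zero_zmod (hp2 : p ≠ 2) : (2 : ZMod p) ≠ 0 := fun h => by
  have h2 : ((2 : ℕ) : ZMod p) = 0 := by simpa using h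
  exact hp2 ((Nat.prime_dvd_prime_iff_eq Fact.out Nat.prime_two).mp
    ((ZMod.natCast_eq_zero_iff 2 p).mp h2))

theorem omg_conjQ (hp2 : p ≠ 2) : omg p conjQ = -1 := by
  have hp : p.Prime := Fact.out
  have hsq : omg p conjQ * omg p conjQ = 1 := by
    rw [← omg_mul, conjQ_mul_self, omg_one]
  refine (mul_self_eq_one_iff.mp hsq).resolve_left fun h => ?_
  haveI : NeZero p := ⟨hp.ne_zero⟩
  obtain ⟨z, hz⟩ := HasEnoughRootsOfUnity.exists_primitiveRoot Qbar p
  have h1 := (omg_eq_one_iff p).mp h z hz.pow_eq_one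
  rw [conjQ_root_of_unity hp.ne_zero hz.pow_eq_one] at h1
  have h2 : z ^ 2 = 1 := by
    rw [sq]
    conv_lhs => arg 1; rw [← h1]
    exact inv_mul_cancel₀ (hz.ne_zero hp.ne_zero)
  exact hp2 ((Nat.prime_dvd_prime_iff_eq hp Nat.prime_two).mp (hz.dvd_of_pow_eq_one 2 h2))

variable (W : WeierstrassCurve ℤ) [((W.map (Int.castRingHom ℚ))⁄Qbar).IsElliptic]
  (hp2 : p ≠ 2) (hΔ : W.Δ ≠ 0)
include hp2 hΔ

set_option quotPrecheck false in
local notation "ρE" => galoisRepModuleEnd (K := Qbar) ℚ (W.map (Int.castRingHom ℚ)).toAffine p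

/-- A basis of eigenvectors of complex conjugation. -/
theorem exists_conj_basisW : ∃ bs : Module.Basis (Fin 2) (ZMod p) (ETors W p),
    ρE conjQ (bs 0) = bs 0 ∧ ρE conjQ (bs 1) = -(bs 1) := by
  classical
  have hrk := finrank_torsionBy (K := Qbar) (W.map (Int.castRingHom ℚ)).toAffine p
  haveI : Module.Finite (ZMod p) (ETors W p) := Module.finite_of_finrank_eq_succ hrk
  have hcc : ∀ x, ρE conjQ (ρE conjQ x) = x := fun x => by
    rw [← Module.End.mul_apply, ← map_mul, conjQ_mul_self, map_one, Module.End.one_apply]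
  have hdet := det_eq_omg p W hp2 hΔ conjQ
  rw [omg_conjQ p hp2] at hdet
  have hsign : ∀ e : ZMod p, e * e = 1 → ρE conjQ = e • 1 → False := fun e he h => by
    rw [h, LinearMap.det_smul, hrk, map_one, mul_one, pow_two, he] at hdet
    exact two_ne_zero_zmod p hp2 (by linear_combination hdet)
  have hplus : ∃ v, v ≠ 0 ∧ ρE conjQ v = v := by
    by_contra hno
    push Not at hno
    refine hsign (-1) (by ring) (LinearMap.ext fun x => ?_)
    rw [LinearMap.smul_apply, Module.End.one_apply, neg_one_smul, eq_neg_iff_add_eq_zero]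
    by_contra hne
    exact hno _ hne (by rw [map_add, hcc]; abel)
  have hminus : ∃ v, v ≠ 0 ∧ ρE conjQ v = -v := by
    by_contra hno
    push Not at hno
    refine hsign 1 (one_mul 1) (LinearMap.ext fun x => ?_)
    rw [one_smul, Module.End.one_apply, ← sub_eq_zero]
    by_contra hne
    exact hno _ hne (by rw [map_sub, hcc]; abel)
  obtain ⟨v, hv0, hv⟩ := hplus
  obtain ⟨w, hw0, hw⟩ := hminus
  have hli : LinearIndependent (ZMod p) ![v, w] := by
    rw [LinearIndependent.pair_iff]
    intro s t hst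
    have h1 := congrArg (ρE conjQ) hst
    rw [map_add, map_smul, map_smul, hv, hw, _root_.map_zero, smul_neg] at h1
    have h2 : (2 * s) • v = 0 := by linear_combination (norm := module) hst + h1
    have h3 : (2 * t) • w = 0 := by linear_combination (norm := module) hst - h1
    exact ⟨((mul_eq_zero.mp ((smul_eq_zero.mp h2).resolve_right hv0)).resolve_left (two_ne_zero_zmod p hp2)),
      ((mul_eq_zero.mp ((smul_eq_zero.mp h3).resolve_right hw0)).resolve_left (two_ne_zero_zmod p hp2))⟩
  refine ⟨basisOfLinearIndependentOfCardEqFinrank hli (by simp [hrk]), ?_, ?_⟩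
  · simpa using hv
  · simpa using hw

variable (hirr : W.ModRepIsIrreducible p)
include hirr

/-- No basis vector spans a stable line. -/
theorem exists_offdiagW (bs : Module.Basis (Fin 2) (ZMod p) (ETors W p)) (i j : Fin 2)
    (hij : i ≠ j) : ∃ g : GQ, bs.repr (ρE g (bs i)) j ≠ 0 := by
  by_contra hno
  push Not at hno
  have hmem : ∀ g : GQ, ρE g (bs i) ∈ Submodule.span (ZMod p) ({bs i} : Set (ETors W p)) := by
    intro g
    rw [Submodule.mem_span_singleton]
    refine ⟨bs.repr (ρE g (bs i)) i, ?_⟩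
    conv_rhs => rw [← bs.sum_repr (ρE g (bs i))]
    rw [Fin.sum_univ_two]
    fin_cases i <;> fin_cases j <;> first | exact absurd rfl hij | simp_all
  rcases hirr.2 (Submodule.span (ZMod p) {bs i}) (fun g x hx => by
    obtain ⟨c, rfl⟩ := Submodule.mem_span_singleton.mp hx
    rw [smul_comm]
    exact Submodule.smul_mem _ _ (hmem g)) with h | h
  · exact bs.ne_zero i (Submodule.span_singleton_eq_bot.mp h)
  · have h1 := finrank_span_singleton (K := ZMod p) (bs.ne_zero i)
    rw [h, finrank_top, finrank_torsionBy (K := Qbar) (W.map (Int.castRingHom ℚ)).toAffine p] at h1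
    omega

/-- An endomorphism orthogonal to the image is zero. -/
theorem eq_zero_of_traceW (X : Module.End (ZMod p) (ETors W p))
    (h : ∀ g : GQ, LinearMap.trace (ZMod p) _ (X * ρE g) = 0) : X = 0 := by
  classical
  obtain ⟨bs, hj0, hj1⟩ := exists_conj_basisW p W hp2 hΔ
  set e := LinearMap.toMatrixAlgEquiv bs
  have htr : ∀ g : GQ, e X 0 0 * e (ρE g) 0 0 + e X 0 1 * e (ρE g) 1 0 +
      (e X 1 0 * e (ρE g) 0 1 + e X 1 1 * e (ρE g) 1 1) = 0 := fun g => by
    have h1 := h g
    rw [LinearMap.trace_eq_matrix_trace (ZMod p) bs, show LinearMap.toMatrix bs bs (X * ρE g) =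
      e X * e (ρE g) from map_mul e X (ρE g), Matrix.trace_fin_two, Matrix.mul_apply,
      Matrix.mul_apply, Fin.sum_univ_two, Fin.sum_univ_two] at h1
    exact h1
  have hj : e (ρE conjQ) = !![1, 0; 0, -1] := by
    ext i j
    fin_cases i <;> fin_cases j <;> simp [e, LinearMap.toMatrixAlgEquiv_apply, hj0, hj1]
  have hgj : ∀ g : GQ, e (ρE (g * conjQ)) = e (ρE g) * !![1, 0; 0, -1] := fun g => by
    rw [map_mul, map_mul, hj]
  have h1 := htr 1
  have h2 := htr conjQ
  rw [map_one, map_one] at h1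
  rw [hj] at h2
  simp at h1 h2
  have h00 : e X 0 0 = 0 := by
    refine (mul_eq_zero.mp (?_ : 2 * e X 0 0 = 0)).resolve_left (two_ne_zero_zmod p hp2)
    linear_combination h1 + h2
  have h11 : e X 1 1 = 0 := by linear_combination h1 - h00
  have hoff : ∀ g, e X 0 1 * e (ρE g) 1 0 = 0 ∧ e X 1 0 * e (ρE g) 0 1 = 0 := fun g => by
    have h3 := htr g
    have h4 := htr (g * conjQ)
    rw [hgj] at h4
    simp [h00, h11, Matrix.mul_apply, Fin.sum_univ_two] at h3 h4
    constructor
    · refine (mul_eq_zero.mp (?_ : 2 * (e X 0 1 * e (ρE g) 1 0) = 0)).resolve_left (two_ne_zero_zmod p hp2)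
      linear_combination h3 + h4
    · refine (mul_eq_zero.mp (?_ : 2 * (e X 1 0 * e (ρE g) 0 1) = 0)).resolve_left (two_ne_zero_zmod p hp2)
      linear_combination h3 - h4
  obtain ⟨g, hg⟩ := exists_offdiagW p W hp2 hΔ hirr bs 0 1 (by decide)
  obtain ⟨k, hk⟩ := exists_offdiagW p W hp2 hΔ hirr bs 1 0 (by decide)
  have h01 : e X 0 1 = 0 := (mul_eq_zero.mp (hoff g).1).resolve_right (by
    simpa [e, LinearMap.toMatrixAlgEquiv_apply] using hg)
  have h10 : e X 1 0 = 0 := (mul_eq_zero.mp (hoff k).2).resolve_right (by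
    simpa [e, LinearMap.toMatrixAlgEquiv_apply] using hk)
  refine e.injective ?_
  rw [_root_.map_zero]
  ext i j
  fin_cases i <;> fin_cases j <;> simp [h00, h01, h10, h11]

variable {V : Type*} [AddCommGroup V] [Module (ZMod p) V] [Nontrivial V]
  (r : GQ →* Module.End (ZMod p) V)
  (hrel : ∀ g, r g + omg p g • r g⁻¹ = trE W p g • 1)
include hrel

/-- Not every element acts by a scalar. -/
theorem not_forall_scalarW : ¬ ∀ g, ∃ x : ZMod p, r g = x • 1 := by
  classical
  intro hsc
  choose χ hχ using hsc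
  obtain ⟨v, hv⟩ := exists_ne (0 : V)
  have hone : ∀ {a b : ZMod p}, a • (1 : Module.End (ZMod p) V) = b • 1 → a = b := fun h =>
    smul_left_injective (ZMod p) hv (by simpa using LinearMap.congr_fun h v)
  have hmul : ∀ g h, χ (g * h) = χ g * χ h := fun g h => hone (by
    rw [← hχ, map_mul, hχ, hχ, smul_mul_smul_comm, one_mul])
  have h11 : χ 1 = 1 := hone (by rw [← hχ, map_one, one_smul])
  have hrel' : ∀ g, χ g + omg p g * χ g⁻¹ = trE W p g := fun g => hone (by
    rw [add_smul, mul_smul, ← hχ, ← hχ, hrel])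
  have hinv : ∀ g, χ g * χ g⁻¹ = 1 := fun g => by rw [← hmul, mul_inv_cancel, h11]
  have hjj : χ conjQ * χ conjQ = 1 := by rw [← hmul, conjQ_mul_self, h11]
  obtain ⟨bs, hj0, hj1⟩ := exists_conj_basisW p W hp2 hΔ
  set e := LinearMap.toMatrixAlgEquiv bs
  have hj : e (ρE conjQ) = !![1, 0; 0, -1] := by
    ext i j
    fin_cases i <;> fin_cases j <;> simp [e, LinearMap.toMatrixAlgEquiv_apply, hj0, hj1]
  have htr : ∀ g, trE W p g = e (ρE g) 0 0 + e (ρE g) 1 1 := fun g => by
    rw [trE, galoisTrace_def, LinearMap.trace_eq_matrix_trace (ZMod p) bs,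
      Matrix.trace_fin_two]
    rfl
  -- the diagonal entries
  have hdiag : ∀ g, e (ρE g) 0 0 * e (ρE g) 1 1 = omg p g := fun g => by
    have h1 := hrel' g
    have h2 := hrel' (g * conjQ)
    have hc : χ conjQ⁻¹ = χ conjQ := by rw [inv_eq_of_mul_eq_one_right conjQ_mul_self]
    rw [htr] at h1 h2
    rw [map_mul, map_mul, hj, hmul, omg_mul, omg_conjQ p hp2, mul_inv_rev, hmul, hc] at h2
    simp [Matrix.mul_apply, Fin.sum_univ_two] at h2
    have h2' := congrArg (fun x => χ conjQ * x) h2
    have h3 := hinv g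
    rcases mul_self_eq_one_iff.mp hjj with hs | hs
    · simp only [hs, one_mul, mul_one] at h2'
      have ha : e (ρE g) 0 0 = χ g :=
        mul_left_cancel₀ (two_ne_zero_zmod p hp2) (by linear_combination -h1 - h2')
      have hd : e (ρE g) 1 1 = omg p g * χ g⁻¹ := by linear_combination -h1 - ha
      rw [ha, hd]
      linear_combination omg p g * h3
    · simp only [hs] at h2'
      have hd : e (ρE g) 1 1 = χ g :=
        mul_left_cancel₀ (two_ne_zero_zmod p hp2) (by linear_combination -h1 - h2')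
      have ha : e (ρE g) 0 0 = omg p g * χ g⁻¹ := by linear_combination -h1 - hd
      rw [ha, hd]
      linear_combination omg p g * h3
  have hbc : ∀ g, e (ρE g) 0 1 * e (ρE g) 1 0 = 0 := fun g => by
    have h1 := det_eq_omg p W hp2 hΔ g
    rw [← LinearMap.det_toMatrix bs, show LinearMap.toMatrix bs bs (ρE g) = e (ρE g) from rfl,
      Matrix.det_fin_two] at h1
    linear_combination hdiag g - h1
  obtain ⟨g, hg⟩ := exists_offdiagW p W hp2 hΔ hirr bs 0 1 (by decide)
  obtain ⟨k, hk⟩ := exists_offdiagW p W hp2 hΔ hirr bs 1 0 (by decide)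
  have hg' : e (ρE g) 1 0 ≠ 0 := by simpa [e, LinearMap.toMatrixAlgEquiv_apply] using hg
  have hk' : e (ρE k) 0 1 ≠ 0 := by simpa [e, LinearMap.toMatrixAlgEquiv_apply] using hk
  have hgb := (mul_eq_zero.mp (hbc g)).resolve_right hg'
  have hkc := (mul_eq_zero.mp (hbc k)).resolve_left hk'
  -- the product has both entries
  have h5 := hbc (g * k)
  rw [map_mul, map_mul] at h5
  simp [Matrix.mul_apply, Fin.sum_univ_two, hgb, hkc] at h5
  have hne : ∀ {h : GQ}, e (ρE h) 0 0 ≠ 0 := fun {h} h0 =>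
    omg_ne_zero p h (by rw [← hdiag h, h0, zero_mul])
  rcases h5 with (h6 | h6) | (h6 | h6)
  all_goals first | exact hne h6 | exact hg' h6 | exact hk' h6

variable {σ : GQ} {c : ZMod p} {q : ℕ}

/-- If `σ` acts as `c`, `c ^ 2 = q ^ 2` and `ω σ = q`, then `q = 1` and `σ` is `c` on `E[p]`. -/
theorem scalar_of_eigenW (hc : c * c = (q : ZMod p) * q) (hσ : r σ = c • 1)
    (hω : omg p σ = q) : (q : ZMod p) = 1 ∧ ρE σ = c • 1 := by
  have hq0 : (q : ZMod p) ≠ 0 := hω ▸ omg_ne_zero p σ
  have hc0 : c ≠ 0 := fun h0 => mul_ne_zero hq0 hq0 (by rw [← hc, h0, zero_mul])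
  have hσ' : r σ⁻¹ = c⁻¹ • 1 := by
    have h1 : r σ⁻¹ * r σ = 1 := by rw [← map_mul, inv_mul_cancel, map_one]
    rw [hσ, mul_smul_comm, mul_one] at h1
    rw [← h1, smul_smul, inv_mul_cancel₀ hc0, one_smul]
  have key : ∀ h : GQ, (c - (q : ZMod p) / c) • r h =
      (trE W p (σ * h) - (q : ZMod p) / c * trE W p h) • 1 := fun h => by
    have h1 := hrel (σ * h)
    rw [omg_mul, hω, mul_inv_rev, map_mul, map_mul, hσ, hσ', smul_mul_assoc, one_mul,
      mul_smul_comm, mul_one, smul_smul] at h1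
    have h2 := congrArg (fun X => ((q : ZMod p) / c) • X) (hrel h)
    simp only [smul_add, smul_smul] at h2
    linear_combination (norm := module) h1 - h2
  have hcq : c - (q : ZMod p) / c = 0 := by
    by_contra hne
    refine not_forall_scalarW p W hp2 hΔ hirr r hrel fun h =>
      ⟨(c - (q : ZMod p) / c)⁻¹ * (trE W p (σ * h) - (q : ZMod p) / c * trE W p h), ?_⟩
    rw [mul_smul, ← key, smul_smul, inv_mul_cancel₀ hne, one_smul]
  have hq1 : (q : ZMod p) = 1 := by
    rw [sub_eq_zero, eq_div_iff hc0, hc] at hcq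
    exact mul_left_cancel₀ hq0 (by rw [hcq, mul_one])
  refine ⟨hq1, sub_eq_zero.mp (eq_zero_of_traceW p W hp2 hΔ hirr _ fun h => ?_)⟩
  obtain ⟨v, hv⟩ := exists_ne (0 : V)
  have h1 : trE W p (σ * h) - (q : ZMod p) / c * trE W p h = 0 :=
    smul_left_injective (ZMod p) hv (by
      have := LinearMap.congr_fun (key h) v
      rw [hcq, zero_smul] at this
      simpa using this.symm)
  rw [← sub_eq_zero.mp hcq, trE, trE, galoisTrace_def, galoisTrace_def, map_mul] at h1
  rw [sub_mul, smul_mul_assoc, one_mul, map_sub, map_smul, smul_eq_mul]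
  exact h1


end Fermat.Agent.R59
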